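import Mathlib

/-!
# Kummer's descent (Case II) over a principal ideal domain
-/

set_option autoImplicit false

namespace Fermat.Agent.KummerSmall

open Finset Polynomial

/-- The data needed for Kummer's descent. -/
structure KummerData (p : ℕ) (O : Type*) [CommRing O] where
  ζ : O
  hζ : IsPrimitiveRoot ζ p
  hprime : Prime (ζ - 1)
  hassoc : Associated ((ζ - 1) ^ (p - 1)) (p : O)
  hres : ∀ x : O, ∃ n : ℤ, (ζ - 1) ∣ x - n
  hint : ∀ n : ℤ, (ζ - 1) ∣ (n : O) → (p : ℤ) ∣ n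
  hkummer : ∀ (u : Oˣ) (n : ℤ), (p : O) ∣ (u : O) - n → ∃ v : Oˣ, u = v ^ p

namespace KummerData

variable {p : ℕ} {O : Type*} [CommRing O] (D : KummerData p O)

include D

lemma lam_dvd_p (hp2 : 5 ≤ p) : (D.ζ - 1) ∣ (p : O) :=
  (dvd_pow_self _ (by omega)).trans D.hassoc.dvd

lemma p_dvd_lam_pow {k : ℕ} (hk : p - 1 ≤ k) : (p : O) ∣ (D.ζ - 1) ^ k :=
  D.hassoc.symm.dvd.trans (pow_dvd_pow _ hk)

/-- `p`-th powers are congruent to rational integers mod `p`. -/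
lemma pow_p_congr [hp : Fact p.Prime] (x : O) : ∃ n : ℤ, (p : O) ∣ x ^ p - n := by
  obtain ⟨n, y, hy⟩ := D.hres x
  refine ⟨n ^ p, ?_⟩
  have hx : x = (D.ζ - 1) * y + n := by rw [← hy]; ring
  have h1 : (p : O) ∣ (D.ζ - 1) ^ p * y ^ p := (D.p_dvd_lam_pow (by omega)).mul_right _
  have h2 : (p : O) ∣ x ^ p - (((D.ζ - 1) * y) ^ p + (n : O) ^ p) := by
    rw [hx]
    obtain ⟨r, hr⟩ := exists_add_pow_prime_eq hp.out ((D.ζ - 1) * y) (n : O)
    rw [hr]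
    refine ⟨(D.ζ - 1) * y * n * r, by ring⟩
  have h3 : x ^ p - ((n ^ p : ℤ) : O) =
      (x ^ p - (((D.ζ - 1) * y) ^ p + (n : O) ^ p)) + (D.ζ - 1) ^ p * y ^ p := by
    push_cast
    rw [mul_pow]
    ring
  rw [h3]
  exact dvd_add h2 h1

lemma lam_ne_zero : (D.ζ - 1) ≠ 0 := D.hprime.ne_zero

variable [IsDomain O]

/-- exactly one of the quotients is divisible by `λ`. -/
lemma exists_eta [hp : Fact p.Prime] (hp5 : 5 ≤ p) {x y w : O} (hxy : x + y = (D.ζ - 1) * w)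
    (hy : ¬ (D.ζ - 1) ∣ y) :
    ∃ η ∈ nthRootsFinset p (1 : O), (D.ζ - 1) ^ 2 ∣ x + η * y := by
  obtain ⟨m, hm⟩ := D.hres w
  obtain ⟨t, ht⟩ := D.hres y
  have htp : ¬ (p : ℤ) ∣ t := by
    intro h
    apply hy
    have h1 : (D.ζ - 1) ∣ (t : O) := by
      obtain ⟨s, rfl⟩ := h
      push_cast
      exact (D.lam_dvd_p hp5).mul_right _
    have := dvd_add ht h1
    simpa using this
  -- solve m + i t ≡ 0 mod p
  obtain ⟨i, hi⟩ : ∃ i : ℕ, (p : ℤ) ∣ m + i * t := by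
    have hu : (t : ZMod p) ≠ 0 := by
      intro h; exact htp ((ZMod.intCast_zmod_eq_zero_iff_dvd t p).1 h)
    refine ⟨((-(m : ZMod p)) * (t : ZMod p)⁻¹).val, ?_⟩
    rw [← ZMod.intCast_zmod_eq_zero_iff_dvd]
    push_cast
    rw [ZMod.natCast_zmod_val]
    field_simp
    ring
  refine ⟨D.ζ ^ i, ?_, ?_⟩
  · rw [mem_nthRootsFinset hp.out.pos, ← pow_mul, mul_comm, pow_mul, D.hζ.pow_eq_one, one_pow]
  · have hg : (D.ζ - 1) * ∑ j ∈ range i, D.ζ ^ j = D.ζ ^ i - 1 := mul_geom_sum _ _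
    have hg2 : (D.ζ - 1) ∣ (∑ j ∈ range i, D.ζ ^ j) - (i : O) := by
      have : (∑ j ∈ range i, D.ζ ^ j) - (i : O) = ∑ j ∈ range i, (D.ζ ^ j - 1) := by
        simp [Finset.sum_sub_distrib]
      rw [this]
      exact Finset.dvd_sum fun j _ => by simpa using sub_dvd_pow_sub_pow D.ζ 1 j
    have h1 : x + D.ζ ^ i * y = (D.ζ - 1) * (w + (∑ j ∈ range i, D.ζ ^ j) * y) := by
      linear_combination hxy - y * hg
    rw [h1, sq]
    apply mul_dvd_mul_left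
    have hmi : (D.ζ - 1) ∣ (m : O) + i * t := by
      obtain ⟨s, hs⟩ := hi
      have : (m : O) + i * t = p * s := by exact_mod_cast congrArg (Int.cast : ℤ → O) hs
      rw [this]
      exact (D.lam_dvd_p hp5).mul_right _
    have h2 : w + (∑ j ∈ range i, D.ζ ^ j) * y =
        (w - m) + ((∑ j ∈ range i, D.ζ ^ j) - i) * y + i * (y - t) + (m + i * t) := by ring
    rw [h2]
    exact dvd_add (dvd_add (dvd_add hm (hg2.mul_right _)) (ht.mul_left _)) hmi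

lemma lam_dvd_sub {η₁ η₂ : O} [hp : Fact p.Prime] (h1 : η₁ ∈ nthRootsFinset p (1 : O))
    (h2 : η₂ ∈ nthRootsFinset p (1 : O)) : (D.ζ - 1) ∣ η₁ - η₂ :=
  D.hζ.sub_one_dvd_sub hp.out h1 h2

lemma exists_eta' [hp : Fact p.Prime] (hp5 : 5 ≤ p) {n : ℕ} {x y z : O} {ε : Oˣ}
    (hy : ¬ (D.ζ - 1) ∣ y)
    (heq : x ^ p + y ^ p = ε * ((D.ζ - 1) ^ (n + 1) * z) ^ p) :
    ∃ η ∈ nthRootsFinset p (1 : O), (D.ζ - 1) ^ 2 ∣ x + η * y := by
  have hpodd : Odd p := hp.out.odd_of_ne_two (by omega)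
  have h1 : x ^ p + y ^ p = ∏ η ∈ nthRootsFinset p (1 : O), (x + η * y) :=
    D.hζ.pow_add_pow_eq_prod_add_mul (x := x) (y := y) hpodd
  have h2 : (D.ζ - 1) ∣ ∏ η ∈ nthRootsFinset p (1 : O), (x + η * y) := by
    rw [← h1, heq, mul_pow, ← pow_mul]
    exact ((dvd_pow_self _ (by positivity)).mul_right _).mul_left _
  rw [D.hprime.dvd_finsetProd_iff] at h2
  obtain ⟨η, hη, h3⟩ := h2
  have h1S : (1 : O) ∈ nthRootsFinset p (1 : O) := by
    rw [mem_nthRootsFinset hp.out.pos]; simp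
  have h4 : (D.ζ - 1) ∣ x + y := by
    have h5 : x + y = (x + η * y) + (1 - η) * y := by ring
    rw [h5]
    exact dvd_add h3 ((D.lam_dvd_sub h1S hη).mul_right _)
  obtain ⟨w, hw⟩ := h4
  exact D.exists_eta hp5 hw hy

variable [IsPrincipalIdealRing O]

/-- The key step: given a solution normalised by `λ² ∣ x + y`, produce a smaller one. -/
lemma descent_step [hp : Fact p.Prime] (hp5 : 5 ≤ p) {n : ℕ} {x y z : O} {ε : Oˣ}
    (hcop : IsCoprime x y) (hy : ¬ (D.ζ - 1) ∣ y) (hz : ¬ (D.ζ - 1) ∣ z)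
    (hxy : (D.ζ - 1) ^ 2 ∣ x + y)
    (heq : x ^ p + y ^ p = ε * ((D.ζ - 1) ^ (n + 1) * z) ^ p) :
    ∃ m, n = m + 1 ∧ ∃ (x' y' z' : O) (ε' : Oˣ), IsCoprime x' y' ∧ ¬ (D.ζ - 1) ∣ x' ∧
      ¬ (D.ζ - 1) ∣ y' ∧ ¬ (D.ζ - 1) ∣ z' ∧
      x' ^ p + y' ^ p = ε' * ((D.ζ - 1) ^ (m + 1) * z') ^ p := by
  classical
  set lam : O := D.ζ - 1 with hlam
  have hpodd : Odd p := hp.out.odd_of_ne_two (by omega)
  have hlam0 : lam ≠ 0 := D.lam_ne_zero
  set S := nthRootsFinset p (1 : O) with hS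
  have h1S : (1 : O) ∈ S := by rw [hS, mem_nthRootsFinset hp.out.pos]; simp
  have hζS : D.ζ ∈ S := by rw [hS, mem_nthRootsFinset hp.out.pos]; exact D.hζ.pow_eq_one
  -- define w
  have hdvd : ∀ η ∈ S, lam ∣ x + η * y := by
    intro η hη
    have h2 : x + η * y = (x + y) + (η - 1) * y := by ring
    rw [h2]
    exact dvd_add ((dvd_pow_self _ two_ne_zero).trans hxy) ((D.lam_dvd_sub hη h1S).mul_right _)
  choose! w hw using hdvd
  have hprod : ∏ η ∈ S, w η = ε * (lam ^ n * z) ^ p := by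
    have h1 : x ^ p + y ^ p = ∏ η ∈ S, (x + η * y) :=
      D.hζ.pow_add_pow_eq_prod_add_mul (x := x) (y := y) hpodd
    rw [Finset.prod_congr rfl hw, Finset.prod_mul_distrib, Finset.prod_const,
      D.hζ.card_nthRootsFinset] at h1
    have h2 : lam ^ p * ∏ η ∈ S, w η = lam ^ p * (ε * (lam ^ n * z) ^ p) := by
      rw [← h1, heq]
      ring
    exact mul_left_cancel₀ (pow_ne_zero _ hlam0) h2
  -- coprimality
  have hcopw : ∀ η₁ ∈ S, ∀ η₂ ∈ S, η₁ ≠ η₂ → IsCoprime (w η₁) (w η₂) := by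
    intro η₁ h₁ η₂ h₂ hne
    obtain ⟨u, hu⟩ := D.hζ.nthRootsFinset_pairwise_associated_sub_one_sub_of_prime hp.out h₁ h₂ hne
    -- lam * u = η₁ - η₂
    have e1 : w η₁ - w η₂ = u * y := by
      apply mul_left_cancel₀ hlam0
      linear_combination - hw η₁ h₁ + hw η₂ h₂ - y * hu
    have e2 : η₂ * w η₁ - η₁ * w η₂ = - (u * x) := by
      apply mul_left_cancel₀ hlam0
      linear_combination - η₂ * hw η₁ h₁ + η₁ * hw η₂ h₂ + x * hu
    obtain ⟨a, b, hab⟩ := hcop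
    have hy' : y = (↑u⁻¹ : O) * (w η₁ - w η₂) := by rw [e1, ← mul_assoc, Units.inv_mul, one_mul]
    have hx' : x = - (↑u⁻¹ : O) * (η₂ * w η₁ - η₁ * w η₂) := by
      rw [e2]
      linear_combination - x * u.inv_mul
    refine ⟨- a * (↑u⁻¹ : O) * η₂ + b * (↑u⁻¹ : O), a * (↑u⁻¹ : O) * η₁ - b * (↑u⁻¹ : O), ?_⟩
    rw [hx', hy'] at hab
    linear_combination hab
  have hcopw' : ∀ η ∈ S, IsCoprime (w η) (∏ η' ∈ S.erase η, w η') := by
    intro η hη
    apply IsCoprime.prod_right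
    intro η' hη'
    exact hcopw η hη η' (Finset.mem_of_mem_erase hη') (Finset.ne_of_mem_erase hη').symm
  -- each w is a unit times a p-th power
  have hpow : ∀ η ∈ S, ∃ (d : O) (u : Oˣ), w η = u * d ^ p := by
    intro η hη
    have h1 : w η * ((↑ε⁻¹ : O) * ∏ η' ∈ S.erase η, w η') = (lam ^ n * z) ^ p := by
      have h2 : w η * ∏ η' ∈ S.erase η, w η' = ε * (lam ^ n * z) ^ p := by
        rw [Finset.mul_prod_erase S w hη, hprod]
      linear_combination (↑ε⁻¹ : O) * h2 + (lam ^ n * z) ^ p * ε.inv_mul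
    have h3 : IsCoprime (w η) ((↑ε⁻¹ : O) * ∏ η' ∈ S.erase η, w η') :=
      (isCoprime_mul_unit_left_right (Units.isUnit _) _ _).2 (hcopw' η hη)
    obtain ⟨d, u, hu⟩ := exists_associated_pow_of_mul_eq_pow' h3 h1
    exact ⟨d, u, by rw [← hu]; ring⟩
  have hw1 : x + y = lam * w 1 := by simpa using hw 1 h1S
  have hlamw1 : lam ∣ w 1 := by
    rw [hw1, sq] at hxy
    exact (mul_dvd_mul_iff_left hlam0).1 hxy
  have hnotdvd : ∀ η ∈ S, η ≠ 1 → ¬ lam ∣ w η := by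
    intro η hη hne hdv
    exact D.hprime.not_isUnit ((hcopw η hη 1 h1S hne).isUnit_of_dvd' hdv hlamw1)
  have hnotdvdprod : ¬ lam ∣ ∏ η' ∈ S.erase 1, w η' := by
    rw [D.hprime.dvd_finsetProd_iff]
    rintro ⟨η, hη, hdv⟩
    exact hnotdvd η (Finset.mem_of_mem_erase hη) (Finset.ne_of_mem_erase hη) hdv
  have hw1prod : w 1 * ∏ η' ∈ S.erase 1, w η' = ε * (lam ^ n * z) ^ p := by
    rw [Finset.mul_prod_erase S w h1S, hprod]
  -- n ≠ 0
  obtain ⟨m, rfl⟩ : ∃ m, n = m + 1 := by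
    rcases n with _ | m
    · exfalso
      have : lam ∣ ε * (lam ^ 0 * z) ^ p := by
        rw [← hw1prod]; exact hlamw1.mul_right _
      rw [pow_zero, one_mul, Units.dvd_mul_left] at this
      exact hz (D.hprime.dvd_of_dvd_pow this)
    · exact ⟨m, rfl⟩
  refine ⟨m, rfl, ?_⟩
  obtain ⟨d, u0, hu0⟩ := hpow 1 h1S
  have hd : lam ^ (m + 1) ∣ d := by
    have h1 : lam ^ ((m + 1) * p) ∣ w 1 := by
      apply D.hprime.pow_dvd_of_dvd_mul_right _ hnotdvdprod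
      rw [hw1prod]
      refine ⟨ε * z ^ p, by rw [mul_pow, ← pow_mul]; ring⟩
    rw [hu0, Units.dvd_mul_left, pow_mul] at h1
    exact (IsIntegrallyClosed.pow_dvd_pow_iff hp.out.ne_zero).1 h1
  obtain ⟨α0, rfl⟩ := hd
  have hα0 : ¬ lam ∣ α0 := by
    intro h
    have h1 : lam ^ ((m + 1) * p + p) ∣ lam ^ ((m + 1) * p) * z ^ p := by
      have h2 : lam ^ ((m + 1) * p + p) ∣ w 1 := by
        rw [hu0, Units.dvd_mul_left, mul_pow, ← pow_mul, pow_add]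
        exact mul_dvd_mul_left _ (pow_dvd_pow_of_dvd h p)
      have h3 : lam ^ ((m + 1) * p + p) ∣ ε * (lam ^ (m + 1) * z) ^ p := by
        rw [← hw1prod]; exact h2.mul_right _
      rwa [Units.dvd_mul_left, mul_pow, ← pow_mul] at h3
    rw [pow_add, mul_dvd_mul_iff_left (pow_ne_zero _ hlam0)] at h1
    exact hz (D.hprime.dvd_of_dvd_pow ((dvd_pow_self _ hp.out.ne_zero).trans h1))
  -- the other two
  set ζi : O := D.ζ ^ (p - 1) with hζi
  have hζζi : D.ζ * ζi = 1 := by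
    rw [hζi, ← pow_succ', Nat.sub_add_cancel hp.out.one_le, D.hζ.pow_eq_one]
  have hζiS : ζi ∈ S := by
    rw [hS, mem_nthRootsFinset hp.out.pos, hζi, ← pow_mul, mul_comm, pow_mul, D.hζ.pow_eq_one,
      one_pow]
  have hζ1 : D.ζ ≠ 1 := D.hζ.ne_one hp.out.one_lt
  have hζi1 : ζi ≠ 1 := by
    intro h; rw [h, mul_one] at hζζi; exact hζ1 hζζi
  have hζζi' : D.ζ ≠ ζi := by
    intro h
    rw [← h, ← sq] at hζζi
    exact D.hζ.pow_ne_one_of_pos_of_lt two_ne_zero (by omega) hζζi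
  obtain ⟨α1, u1, hu1⟩ := hpow D.ζ hζS
  obtain ⟨α2, u2, hu2⟩ := hpow ζi hζiS
  have hα1 : ¬ lam ∣ α1 := fun h => hnotdvd D.ζ hζS hζ1 (by
    rw [hu1, Units.dvd_mul_left]; exact h.trans (dvd_pow_self _ hp.out.ne_zero))
  have hα2 : ¬ lam ∣ α2 := fun h => hnotdvd ζi hζiS hζi1 (by
    rw [hu2, Units.dvd_mul_left]; exact h.trans (dvd_pow_self _ hp.out.ne_zero))
  have hcopα : IsCoprime α1 α2 := by
    have h := hcopw D.ζ hζS ζi hζiS hζζi'
    exact h.of_isCoprime_of_dvd_left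
        (by rw [hu1]; exact (dvd_pow_self _ hp.out.ne_zero).mul_left _)
      |>.of_isCoprime_of_dvd_right
        (by rw [hu2]; exact (dvd_pow_self _ hp.out.ne_zero).mul_left _)
  obtain ⟨u3, hu3⟩ : ∃ u3 : Oˣ, (u3 : O) = D.ζ := by
    obtain ⟨u, hu⟩ := D.hζ.isUnit hp.out.ne_zero
    exact ⟨u, hu⟩
  obtain ⟨u4, hu4⟩ : ∃ u4 : Oˣ, (u4 : O) = 1 + D.ζ := by
    have := D.hζ.geom_sum_isUnit hp.out.two_le (j := 2)
      ((Nat.coprime_primes Nat.prime_two hp.out).2 (by omega))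
    obtain ⟨u, hu⟩ := this
    refine ⟨u, ?_⟩
    rw [hu]
    simp [Finset.sum_range_succ]
  have hrel : (u1 : O) * α1 ^ p + D.ζ * u2 * α2 ^ p =
      (1 + D.ζ) * u0 * (lam ^ (m + 1) * α0) ^ p := by
    apply mul_left_cancel₀ hlam0
    have e0 := hw1
    have e1 := hw D.ζ hζS
    have e2 := hw ζi hζiS
    rw [hu0] at e0
    rw [hu1] at e1
    rw [hu2] at e2
    linear_combination - e1 - D.ζ * e2 + (1 + D.ζ) * e0 + y * hζζi
  set E : Oˣ := u3 * u2 * u1⁻¹ with hE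
  set E' : Oˣ := u4 * u0 * u1⁻¹ with hE'
  have hrel2 : α1 ^ p + (E : O) * α2 ^ p = (E' : O) * (lam ^ (m + 1) * α0) ^ p := by
    have h1 : (E : O) = D.ζ * u2 * (↑u1⁻¹ : O) := by rw [hE]; push_cast; rw [hu3]
    have h2 : (E' : O) = (1 + D.ζ) * u0 * (↑u1⁻¹ : O) := by rw [hE']; push_cast; rw [hu4]
    rw [h1, h2]
    linear_combination (↑u1⁻¹ : O) * hrel - α1 ^ p * u1.inv_mul
  -- E is congruent to an integer mod p
  obtain ⟨v, hv⟩ : ∃ v : Oˣ, E = v ^ p := by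
    obtain ⟨a1, ha1⟩ := D.pow_p_congr α1
    obtain ⟨a2, ha2⟩ := D.pow_p_congr α2
    have hpR : (p : O) ∣ (E' : O) * (lam ^ (m + 1) * α0) ^ p := by
      rw [mul_pow, ← pow_mul]
      have hle : p - 1 ≤ (m + 1) * p := by
        have h9 : p ≤ (m + 1) * p := Nat.le_mul_of_pos_left p (Nat.succ_pos m)
        omega
      exact ((D.p_dvd_lam_pow hle).mul_right _).mul_left _
    have ha2p : ¬ (p : ℤ) ∣ a2 := by
      intro h
      apply hα2
      have h1 : (p : O) ∣ (a2 : O) := by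
        obtain ⟨s, rfl⟩ := h
        push_cast
        exact dvd_mul_right _ _
      have h2 : (p : O) ∣ α2 ^ p := by
        have := dvd_add ha2 h1
        simpa using this
      exact D.hprime.dvd_of_dvd_pow ((D.lam_dvd_p hp5).trans h2)
    obtain ⟨b, hb⟩ : ∃ b : ℤ, (p : ℤ) ∣ a2 * b - 1 := by
      have hu : (a2 : ZMod p) ≠ 0 := by
        intro h; exact ha2p ((ZMod.intCast_zmod_eq_zero_iff_dvd a2 p).1 h)
      refine ⟨((a2 : ZMod p)⁻¹).val, ?_⟩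
      rw [← ZMod.intCast_zmod_eq_zero_iff_dvd]
      push_cast
      rw [ZMod.natCast_zmod_val, mul_inv_cancel₀ hu, sub_self]
    have hb' : (p : O) ∣ (a2 : O) * b - 1 := by
      obtain ⟨s, hs⟩ := hb
      refine ⟨s, ?_⟩
      exact_mod_cast congrArg (Int.cast : ℤ → O) hs
    apply D.hkummer E (- a1 * b)
    rw [← hrel2] at hpR
    have h5 : (E : O) - ((- a1 * b : ℤ) : O) =
        (b : O) * (α1 ^ p + (E : O) * α2 ^ p) - b * (α1 ^ p - a1) - E * b * (α2 ^ p - a2)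
        - E * (a2 * b - 1) := by
      push_cast
      ring
    rw [h5]
    exact dvd_sub (dvd_sub (dvd_sub (hpR.mul_left _) (ha1.mul_left _)) (ha2.mul_left _))
      (hb'.mul_left _)
  refine ⟨α1, v * α2, α0, E', ?_, hα1, ?_, hα0, ?_⟩
  · exact (isCoprime_mul_unit_left_right v.isUnit _ _).2 hcopα
  · rwa [Units.dvd_mul_left]
  · rw [← hrel2, hv, mul_pow]
    push_cast
    ring

theorem descent [hp : Fact p.Prime] (hp5 : 5 ≤ p) (n : ℕ) : ∀ (x y z : O) (ε : Oˣ),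
    IsCoprime x y → ¬ (D.ζ - 1) ∣ x → ¬ (D.ζ - 1) ∣ y → ¬ (D.ζ - 1) ∣ z →
    x ^ p + y ^ p = ε * ((D.ζ - 1) ^ (n + 1) * z) ^ p → False := by
  induction n with
  | zero =>
    intro x y z ε hcop hx hy hz heq
    obtain ⟨η, hη, hη2⟩ := D.exists_eta' hp5 hy heq
    have hηp : η ^ p = 1 := (mem_nthRootsFinset hp.out.pos 1).1 hη
    have hηu : IsUnit η := IsUnit.of_pow_eq_one hηp hp.out.ne_zero
    obtain ⟨m, hm, -⟩ := D.descent_step hp5 (n := 0) (y := η * y) (ε := ε)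
      ((isCoprime_mul_unit_left_right hηu _ _).2 hcop)
      (by rwa [hηu.dvd_mul_left]) hz hη2 (by rw [mul_pow, hηp, one_mul, heq])
    omega
  | succ n ih =>
    intro x y z ε hcop hx hy hz heq
    obtain ⟨η, hη, hη2⟩ := D.exists_eta' hp5 hy heq
    have hηp : η ^ p = 1 := (mem_nthRootsFinset hp.out.pos 1).1 hη
    have hηu : IsUnit η := IsUnit.of_pow_eq_one hηp hp.out.ne_zero
    obtain ⟨m, hm, x', y', z', ε', h1, h2, h3, h4, h5⟩ := D.descent_step hp5 (n := n + 1)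
      (y := η * y) (ε := ε)
      ((isCoprime_mul_unit_left_right hηu _ _).2 hcop)
      (by rwa [hηu.dvd_mul_left]) hz hη2 (by rw [mul_pow, hηp, one_mul, heq])
    obtain rfl : n = m := by omega
    exact ih x' y' z' ε' h1 h2 h3 h4 h5

end KummerData

end Fermat.Agent.KummerSmall
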