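import Mathlib

/-!
# Sophie Germain's theorem (Case I) and assembling FLT for a prime exponent
-/

set_option autoImplicit false

namespace Fermat.Agent.KummerSmall

open Finset

/-- `(y^p + z^p)/(y+z)` -/
def FF (p : ℕ) (y z : ℤ) : ℤ := ∑ i ∈ range p, y ^ i * (-z) ^ (p - 1 - i)

lemma FF_mul {p : ℕ} (hp : Odd p) (y z : ℤ) : (y + z) * FF p y z = y ^ p + z ^ p := by
  have h := (Commute.all y (-z)).geom_sum₂_mul p
  unfold FF
  rw [hp.neg_pow] at h
  linear_combination h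

lemma FF_congr {p : ℕ} (hp : 0 < p) (y z : ℤ) : (y + z) ∣ FF p y z - p * y ^ (p - 1) := by
  unfold FF
  have h : (p : ℤ) * y ^ (p - 1) = ∑ i ∈ range p, y ^ i * y ^ (p - 1 - i) := by
    rw [Finset.sum_congr rfl (g := fun _ => y ^ (p - 1))]
    · simp
    · intro i hi
      rw [← pow_add]
      congr 1
      have := Finset.mem_range.1 hi
      omega
  rw [h, ← Finset.sum_sub_distrib]
  apply Finset.dvd_sum
  intro i _
  rw [← mul_sub]
  apply Dvd.dvd.mul_left
  have h2 := sub_dvd_pow_sub_pow (-z) y (p - 1 - i)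
  have h3 : y + z ∣ -z - y := ⟨-1, by ring⟩
  exact h3.trans h2

lemma FF_congr' {p : ℕ} (hp : 0 < p) (y z : ℤ) : z ∣ FF p y z - y ^ (p - 1) := by
  unfold FF
  obtain ⟨k, rfl⟩ : ∃ k, p = k + 1 := ⟨p - 1, by omega⟩
  rw [Finset.sum_range_succ]
  simp only [Nat.add_sub_cancel, Nat.sub_self, pow_zero, mul_one, add_sub_cancel_right]
  apply Finset.dvd_sum
  intro i hi
  have hi' := Finset.mem_range.1 hi
  apply Dvd.dvd.mul_left
  have h1 : z ∣ -z := by simp
  exact h1.trans (dvd_pow_self _ (by omega))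

lemma isCoprime_FF {p : ℕ} [hp : Fact p.Prime] (hodd : Odd p) {x y z : ℤ}
    (h : x ^ p + y ^ p + z ^ p = 0) (hyz : IsCoprime y z) (hpx : ¬ (p : ℤ) ∣ x) :
    IsCoprime (y + z) (FF p y z) := by
  rw [Int.isCoprime_iff_gcd_eq_one]
  by_contra hne
  obtain ⟨r, hr, hr1⟩ := Nat.exists_prime_and_dvd hne
  have hr' : Prime (r : ℤ) := Nat.prime_iff_prime_int.1 hr
  have hd1 : (r : ℤ) ∣ y + z := (Int.natCast_dvd_natCast.2 hr1).trans (Int.gcd_dvd_left _ _)
  have hd2 : (r : ℤ) ∣ FF p y z := (Int.natCast_dvd_natCast.2 hr1).trans (Int.gcd_dvd_right _ _)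
  have hd3 : (r : ℤ) ∣ p * y ^ (p - 1) := by
    have := dvd_sub hd2 (hd1.trans (FF_congr hp.out.pos y z))
    simpa using this
  rcases hr'.dvd_or_dvd hd3 with h4 | h4
  · -- r = p
    have hrp : r = p := (Nat.prime_dvd_prime_iff_eq hr hp.out).1 (Int.natCast_dvd_natCast.1 h4)
    subst hrp
    apply hpx
    have : (r : ℤ) ∣ x ^ r := by
      have h5 : x ^ r = - ((y + z) * FF r y z) := by rw [FF_mul hodd]; linarith
      rw [h5]
      exact (hd1.mul_right _).neg_right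
    exact hr'.dvd_of_dvd_pow this
  · have h5 := hr'.dvd_of_dvd_pow h4
    have h6 : (r : ℤ) ∣ z := by
      have := dvd_sub hd1 h5
      simpa using this
    exact hr'.not_isUnit (hyz.isUnit_of_dvd' h5 h6)

lemma exists_pows {p : ℕ} [hp : Fact p.Prime] (hodd : Odd p) {x y z : ℤ}
    (h : x ^ p + y ^ p + z ^ p = 0) (hyz : IsCoprime y z) (hpx : ¬ (p : ℤ) ∣ x) :
    ∃ a t : ℤ, y + z = a ^ p ∧ FF p y z = t ^ p ∧ x = - (a * t) := by
  have hc := isCoprime_FF hodd h hyz hpx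
  have hm : (y + z) * FF p y z = (-x) ^ p := by
    rw [FF_mul hodd, hodd.neg_pow]; linarith
  obtain ⟨a, ha⟩ := Int.eq_pow_of_mul_eq_pow_odd_left hc hodd hm
  obtain ⟨t, ht⟩ := Int.eq_pow_of_mul_eq_pow_odd_right hc hodd hm
  refine ⟨a, t, ha, ht, ?_⟩
  rw [ha, ht, ← mul_pow] at hm
  have := hodd.pow_injective hm
  linarith

lemma germain_aux {p q : ℕ} [hp : Fact p.Prime] [hq : Fact q.Prime] (hodd : Odd p)
    (h1 : ∀ x y z : ZMod q, x ^ p + y ^ p + z ^ p = 0 → x = 0 ∨ y = 0 ∨ z = 0)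
    (h2 : ∀ t : ZMod q, t ^ p ≠ p)
    {x y z : ℤ} (h : x ^ p + y ^ p + z ^ p = 0) (hxy : IsCoprime x y) (hyz : IsCoprime y z)
    (hzx : IsCoprime z x) (hpx : ¬ (p : ℤ) ∣ x) (hpy : ¬ (p : ℤ) ∣ y) (hpz : ¬ (p : ℤ) ∣ z)
    (hqx : (x : ZMod q) = 0) : False := by
  obtain ⟨a, t, ha, ht, hx⟩ := exists_pows hodd h hyz hpx
  obtain ⟨b, s, hb, hs, hy⟩ := exists_pows hodd (x := y) (y := z) (z := x) (by linarith) hzx hpy
  obtain ⟨c, r, hc, hr, hz⟩ := exists_pows hodd (x := z) (y := x) (z := y) (by linarith) hxy hpz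
  have hqi : Prime (q : ℤ) := Nat.prime_iff_prime_int.1 hq.out
  have hxq : (q : ℤ) ∣ x := (ZMod.intCast_zmod_eq_zero_iff_dvd x q).1 hqx
  have hyq : (y : ZMod q) ≠ 0 := by
    intro h3
    exact hqi.not_isUnit (hxy.isUnit_of_dvd' hxq ((ZMod.intCast_zmod_eq_zero_iff_dvd y q).1 h3))
  have hzq : (z : ZMod q) ≠ 0 := by
    intro h3
    exact hqi.not_isUnit (hzx.isUnit_of_dvd' ((ZMod.intCast_zmod_eq_zero_iff_dvd z q).1 h3) hxq)
  have e1 : (b : ZMod q) ^ p + (c : ZMod q) ^ p + (-a : ZMod q) ^ p = 0 := by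
    have : b ^ p + c ^ p - a ^ p = 2 * x := by rw [← ha, ← hb, ← hc]; ring
    have h3 := congrArg (Int.cast : ℤ → ZMod q) this
    push_cast at h3
    rw [hqx, mul_zero] at h3
    rw [hodd.neg_pow]
    linear_combination h3
  rcases h1 _ _ _ e1 with h3 | h3 | h3
  · apply hyq
    rw [hy]
    push_cast
    rw [h3]
    ring
  · apply hzq
    rw [hz]
    push_cast
    rw [h3]
    ring
  · have ha0 : (a : ZMod q) = 0 := by simpa using h3
    have hyz0 : (y : ZMod q) + z = 0 := by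
      have h4 := congrArg (Int.cast : ℤ → ZMod q) ha
      push_cast at h4
      rw [ha0, zero_pow hp.out.ne_zero] at h4
      exact h4
    have e2 : (t : ZMod q) ^ p = p * (y : ZMod q) ^ (p - 1) := by
      have h4 : ((FF p y z : ℤ) : ZMod q) - p * (y : ZMod q) ^ (p - 1) = 0 := by
        obtain ⟨w, hw⟩ := FF_congr hp.out.pos y z
        have h5 := congrArg (Int.cast : ℤ → ZMod q) hw
        push_cast at h5
        rw [hyz0, zero_mul] at h5
        exact h5
      rw [ht] at h4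
      push_cast at h4
      linear_combination h4
    have e3 : (s : ZMod q) ^ p = (z : ZMod q) ^ (p - 1) := by
      obtain ⟨w, hw⟩ := FF_congr' hp.out.pos z x
      have h5 := congrArg (Int.cast : ℤ → ZMod q) hw
      push_cast at h5
      rw [hqx, zero_mul, hs] at h5
      push_cast at h5
      linear_combination h5
    have hev : Even (p - 1) := hodd.tsub_odd odd_one
    have e4 : (y : ZMod q) ^ (p - 1) = (z : ZMod q) ^ (p - 1) := by
      have : (y : ZMod q) = - z := by linear_combination hyz0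
      rw [this, hev.neg_pow]
    have hs0 : (s : ZMod q) ≠ 0 := by
      intro h4
      rw [h4, zero_pow hp.out.ne_zero] at e3
      exact hzq (pow_eq_zero_iff (M₀ := ZMod q) (n := p - 1) (by
        have := hp.out.two_le; omega) |>.1 e3.symm)
    apply h2 (t * (s : ZMod q)⁻¹)
    rw [mul_pow, e2, e4, ← e3, inv_pow, mul_assoc, mul_inv_cancel₀ (pow_ne_zero _ hs0), mul_one]

/-- Sophie Germain's theorem. -/
theorem germain {p q : ℕ} [hp : Fact p.Prime] [hq : Fact q.Prime] (hodd : Odd p)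
    (h1 : ∀ x y z : ZMod q, x ^ p + y ^ p + z ^ p = 0 → x = 0 ∨ y = 0 ∨ z = 0)
    (h2 : ∀ t : ZMod q, t ^ p ≠ p)
    {x y z : ℤ} (h : x ^ p + y ^ p + z ^ p = 0) (hxy : IsCoprime x y) (hyz : IsCoprime y z)
    (hzx : IsCoprime z x) : (p : ℤ) ∣ x ∨ (p : ℤ) ∣ y ∨ (p : ℤ) ∣ z := by
  by_contra hcon
  push Not at hcon
  obtain ⟨hpx, hpy, hpz⟩ := hcon
  have h3 := congrArg (Int.cast : ℤ → ZMod q) h
  push_cast at h3
  rcases h1 _ _ _ h3 with h4 | h4 | h4
  · exact germain_aux hodd h1 h2 h hxy hyz hzx hpx hpy hpz h4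
  · exact germain_aux hodd h1 h2 (x := y) (y := z) (z := x) (by linarith) hyz hzx hxy hpy hpz hpx h4
  · exact germain_aux hodd h1 h2 (x := z) (y := x) (z := y) (by linarith) hzx hxy hyz hpz hpx hpy h4

end Fermat.Agent.KummerSmall
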