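import Fermat.Agent.KummerSmall.KummerLemma
import Fermat.Agent.KummerSmall.SophieGermain
import Fermat.Agent.Cyclo.ClassNumberOne

/-!
# Fermat's Last Theorem for exponents 5, 7, 11, 13
-/

set_option autoImplicit false

namespace Fermat.Agent.KummerSmall

open Finset NumberField Polynomial

/-- residue representatives -/
lemma exists_int_res {p : ℕ} [hp : Fact p.Prime] {K : Type*} [Field K]
    [NumberField K] [IsCyclotomicExtension {p} ℚ K] {ζ : 𝓞 K} (hζ : IsPrimitiveRoot ζ p)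
    (x : 𝓞 K) : ∃ n : ℤ, (ζ - 1) ∣ x - n := by
  obtain ⟨B, rfl⟩ := exists_poly hζ x
  refine ⟨B.eval 1, ?_⟩
  have h := Polynomial.sub_dvd_eval_sub ζ 1 (B.map (algebraMap ℤ (𝓞 K)))
  rw [Polynomial.eval_map_algebraMap] at h
  convert h using 2
  rw [Polynomial.eval_map_algebraMap]
  have : (aeval (1 : 𝓞 K)) B = algebraMap ℤ (𝓞 K) (B.eval 1) := by
    rw [← Polynomial.aeval_algebraMap_apply_eq_algebraMap_eval, map_one]
  rw [this]
  rfl

/-- the Kummer data attached to a cyclotomic field from a proof of Kummer's lemma -/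
lemma exists_kummerData {p : ℕ} [hp : Fact p.Prime] {K : Type*} [Field K]
    [NumberField K] [IsCyclotomicExtension {p} ℚ K]
    (hk : ∀ ζ : 𝓞 K, IsPrimitiveRoot ζ p →
      (∀ x : 𝓞 K, ∃ n : ℤ, ((p : ℕ) : 𝓞 K) ∣ x ^ p - n) →
      ∀ (w : (𝓞 K)ˣ) (n : ℤ), (p : 𝓞 K) ∣ (w : 𝓞 K) - n → ∃ v : (𝓞 K)ˣ, w = v ^ p) :
    Nonempty (KummerData p (𝓞 K)) := by
  have hne : NeZero p := ⟨hp.out.ne_zero⟩
  have hζK := IsCyclotomicExtension.zeta_spec p ℚ K
  have hζ : IsPrimitiveRoot hζK.toInteger p := hζK.toInteger_isPrimitiveRoot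
  have hassoc := IsCyclotomicExtension.Rat.associated_zeta_sub_one_pow_prime p hζK
  have hpow : ∀ x : 𝓞 K, ∃ n : ℤ, ((p : ℕ) : 𝓞 K) ∣ x ^ p - n := by
    intro x
    obtain ⟨n, y, hy⟩ := exists_int_res hζ x
    refine ⟨n ^ p, ?_⟩
    have hx : x = (hζK.toInteger - 1) * y + n := by rw [← hy]; ring
    have h0 : (p : 𝓞 K) ∣ (hζK.toInteger - 1) ^ p :=
      hassoc.symm.dvd.trans (pow_dvd_pow _ (by omega))
    have h1 : (p : 𝓞 K) ∣ (hζK.toInteger - 1) ^ p * y ^ p := h0.mul_right _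
    have h2 : (p : 𝓞 K) ∣ x ^ p - (((hζK.toInteger - 1) * y) ^ p + (n : 𝓞 K) ^ p) := by
      rw [hx]
      obtain ⟨r, hr⟩ := exists_add_pow_prime_eq hp.out ((hζK.toInteger - 1) * y) (n : 𝓞 K)
      rw [hr]
      refine ⟨(hζK.toInteger - 1) * y * n * r, by ring⟩
    have h3 : x ^ p - ((n ^ p : ℤ) : 𝓞 K) =
        (x ^ p - (((hζK.toInteger - 1) * y) ^ p + (n : 𝓞 K) ^ p)) +
          (hζK.toInteger - 1) ^ p * y ^ p := by
      push_cast
      rw [mul_pow]
      ring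
    rw [h3]
    exact dvd_add h2 h1
  exact ⟨{
    ζ := hζK.toInteger
    hζ := hζ
    hprime := hζK.zeta_sub_one_prime'
    hassoc := hassoc
    hres := exists_int_res hζ
    hint := fun n hn => (IsCyclotomicExtension.Rat.zeta_sub_one_dvd_intCast_iff' p hζK).1 hn
    hkummer := fun w n h => hk _ hζ hpow w n h }⟩

/-- Case II for integers. -/
lemma caseII {p : ℕ} [hp : Fact p.Prime] (hp5 : 5 ≤ p) {O : Type*} [CommRing O] [IsDomain O]
    [IsPrincipalIdealRing O] (D : KummerData p O) {x y z : ℤ} (hxy : IsCoprime x y)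
    (hpz : (p : ℤ) ∣ z) (hz0 : z ≠ 0) (hpx : ¬ (p : ℤ) ∣ x) (hpy : ¬ (p : ℤ) ∣ y)
    (h : x ^ p + y ^ p = z ^ p) : False := by
  have hpi : Prime (p : ℤ) := Nat.prime_iff_prime_int.1 hp.out
  have hfin : FiniteMultiplicity (p : ℤ) z := Int.finiteMultiplicity_iff.2 ⟨by
    simpa using hp.out.ne_one, hz0⟩
  obtain ⟨z', hz', hz''⟩ := hfin.exists_eq_pow_mul_and_not_dvd
  set k := multiplicity (p : ℤ) z with hk
  have hk0 : k ≠ 0 := by
    intro h0
    rw [h0, pow_zero, one_mul] at hz'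
    exact hz'' (hz' ▸ hpz)
  obtain ⟨u, hu⟩ := D.hassoc
  -- (λ^(p-1)) * u = p
  obtain ⟨n, hn⟩ : ∃ n, (p - 1) * k = n + 1 := by
    refine ⟨(p - 1) * k - 1, ?_⟩
    have : 0 < (p - 1) * k := Nat.mul_pos (by omega) (Nat.pos_of_ne_zero hk0)
    omega
  refine D.descent hp5 n (x : O) (y : O) (z' : O) (u ^ (k * p)) ?_ ?_ ?_ ?_ ?_
  · exact hxy.map (Int.castRingHom O)
  · exact fun h1 => hpx (D.hint _ h1)
  · exact fun h1 => hpy (D.hint _ h1)
  · exact fun h1 => hz'' (D.hint _ h1)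
  · have h1 := congrArg (Int.cast : ℤ → O) h
    push_cast at h1
    rw [h1, hz', ← hn]
    push_cast
    rw [← hu, mul_pow, mul_pow, mul_pow, mul_pow, ← pow_mul, ← pow_mul, ← pow_mul, ← pow_mul]
    ring

/-- FLT for a prime exponent `p` from Kummer's data and the auxiliary prime `q`. -/
theorem flt_of_data {p q : ℕ} [hp : Fact p.Prime] [hq : Fact q.Prime] (hp5 : 5 ≤ p)
    {O : Type*} [CommRing O] [IsDomain O]
    [IsPrincipalIdealRing O] (D : KummerData p O)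
    (h1 : ∀ x y z : ZMod q, x ^ p + y ^ p + z ^ p = 0 → x = 0 ∨ y = 0 ∨ z = 0)
    (h2 : ∀ t : ZMod q, t ^ p ≠ p)
    {x y z : ℤ} (hxy : IsCoprime x y) (hx : x ≠ 0) (hy : y ≠ 0) (hz : z ≠ 0)
    (h : x ^ p + y ^ p = z ^ p) : False := by
  have hodd : Odd p := hp.out.odd_of_ne_two (by omega)
  have hpi : Prime (p : ℤ) := Nat.prime_iff_prime_int.1 hp.out
  -- coprimality
  have hyz : IsCoprime y z := by
    have h3 : IsCoprime (y ^ p) (z ^ p) := by
      have h4 : IsCoprime (y ^ p) (x ^ p) := (hxy.symm).pow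
      have h5 : z ^ p = x ^ p + y ^ p * 1 := by rw [← h]; ring
      rw [h5]
      exact IsCoprime.add_mul_left_right h4 1
    exact (IsCoprime.pow_iff hp.out.pos hp.out.pos).1 h3
  have hzx : IsCoprime z x := by
    have h3 : IsCoprime (x ^ p) (z ^ p) := by
      have h4 : IsCoprime (x ^ p) (y ^ p) := hxy.pow
      have h5 : z ^ p = y ^ p + x ^ p * 1 := by rw [← h]; ring
      rw [h5]
      exact IsCoprime.add_mul_left_right h4 1
    exact ((IsCoprime.pow_iff hp.out.pos hp.out.pos).1 h3).symm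
  have hnn : ∀ {a b : ℤ}, IsCoprime a b → (p : ℤ) ∣ a → ¬ (p : ℤ) ∣ b := fun hab ha hb =>
    hpi.not_isUnit (hab.isUnit_of_dvd' ha hb)
  have h' : x ^ p + y ^ p + (-z) ^ p = 0 := by rw [hodd.neg_pow, h]; ring
  rcases germain hodd h1 h2 h' hxy hyz.neg_right hzx.neg_left with h3 | h3 | h3
  · -- p ∣ x : z^p + (-y)^p = x^p
    refine caseII hp5 D (x := z) (y := -y) (z := x) hyz.symm.neg_right h3 hx
      (hnn hzx.symm h3) (by rw [dvd_neg]; exact hnn hxy h3) ?_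
    rw [hodd.neg_pow, ← h]; ring
  · refine caseII hp5 D (x := z) (y := -x) (z := y) hzx.neg_right h3 hy
      (hnn hyz h3) (by rw [dvd_neg]; exact hnn hxy.symm h3) ?_
    rw [hodd.neg_pow, ← h]; ring
  · rw [dvd_neg] at h3
    exact caseII hp5 D hxy h3 hz (hnn hzx h3) (hnn hyz.symm h3) h

lemma pow_five_mod (t : ZMod 11) : t = 0 ∨ t ^ 5 = 1 ∨ t ^ 5 = 10 := by revert t; decide +kernel

lemma pow_seven_mod (t : ZMod 29) :
    t = 0 ∨ t ^ 7 = 1 ∨ t ^ 7 = 28 ∨ t ^ 7 = 12 ∨ t ^ 7 = 17 := by revert t; decide +kernel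

lemma pow_eleven_mod (t : ZMod 23) : t = 0 ∨ t ^ 11 = 1 ∨ t ^ 11 = 22 := by
  revert t; decide +kernel

lemma pow_thirteen_mod (t : ZMod 53) :
    t = 0 ∨ t ^ 13 = 1 ∨ t ^ 13 = 52 ∨ t ^ 13 = 23 ∨ t ^ 13 = 30 := by revert t; decide +kernel

lemma check_five (x y z : ZMod 11) (h : x ^ 5 + y ^ 5 + z ^ 5 = 0) : x = 0 ∨ y = 0 ∨ z = 0 := by
  rcases pow_five_mod x with h1 | h1 | h1 <;>
  rcases pow_five_mod y with h2 | h2 | h2 <;>
  rcases pow_five_mod z with h3 | h3 | h3 <;>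
  first
  | exact Or.inl h1
  | exact Or.inr (Or.inl h2)
  | exact Or.inr (Or.inr h3)
  | (rw [h1, h2, h3] at h; exact absurd h (by decide +kernel))

lemma check_seven (x y z : ZMod 29) (h : x ^ 7 + y ^ 7 + z ^ 7 = 0) : x = 0 ∨ y = 0 ∨ z = 0 := by
  rcases pow_seven_mod x with h1 | h1 | h1 | h1 | h1 <;>
  rcases pow_seven_mod y with h2 | h2 | h2 | h2 | h2 <;>
  rcases pow_seven_mod z with h3 | h3 | h3 | h3 | h3 <;>
  first
  | exact Or.inl h1
  | exact Or.inr (Or.inl h2)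
  | exact Or.inr (Or.inr h3)
  | (rw [h1, h2, h3] at h; exact absurd h (by decide +kernel))

lemma check_eleven (x y z : ZMod 23) (h : x ^ 11 + y ^ 11 + z ^ 11 = 0) :
    x = 0 ∨ y = 0 ∨ z = 0 := by
  rcases pow_eleven_mod x with h1 | h1 | h1 <;>
  rcases pow_eleven_mod y with h2 | h2 | h2 <;>
  rcases pow_eleven_mod z with h3 | h3 | h3 <;>
  first
  | exact Or.inl h1
  | exact Or.inr (Or.inl h2)
  | exact Or.inr (Or.inr h3)
  | (rw [h1, h2, h3] at h; exact absurd h (by decide +kernel))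

lemma check_thirteen (x y z : ZMod 53) (h : x ^ 13 + y ^ 13 + z ^ 13 = 0) :
    x = 0 ∨ y = 0 ∨ z = 0 := by
  rcases pow_thirteen_mod x with h1 | h1 | h1 | h1 | h1 <;>
  rcases pow_thirteen_mod y with h2 | h2 | h2 | h2 | h2 <;>
  rcases pow_thirteen_mod z with h3 | h3 | h3 | h3 | h3 <;>
  first
  | exact Or.inl h1
  | exact Or.inr (Or.inl h2)
  | exact Or.inr (Or.inr h3)
  | (rw [h1, h2, h3] at h; exact absurd h (by decide +kernel))

lemma check_five' (t : ZMod 11) : t ^ 5 ≠ ((5 : ℕ) : ZMod 11) := by revert t; decide +kernel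
lemma check_seven' (t : ZMod 29) : t ^ 7 ≠ ((7 : ℕ) : ZMod 29) := by revert t; decide +kernel
lemma check_eleven' (t : ZMod 23) : t ^ 11 ≠ ((11 : ℕ) : ZMod 23) := by revert t; decide +kernel
lemma check_thirteen' (t : ZMod 53) : t ^ 13 ≠ ((13 : ℕ) : ZMod 53) := by revert t; decide +kernel

theorem flt_five {x y z : ℤ} (hxy : IsCoprime x y) (hx : x ≠ 0) (hy : y ≠ 0) (hz : z ≠ 0)
    (h : x ^ 5 + y ^ 5 = z ^ 5) : False := by
  have : NeZero ((5 : ℕ) : ℚ) := ⟨by norm_num⟩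
  have : IsCyclotomicExtension {5} ℚ (CyclotomicField 5 ℚ) :=
    CyclotomicField.isCyclotomicExtension 5 ℚ
  have : Fact (Nat.Prime 5) := ⟨by norm_num⟩
  have : Fact (Nat.Prime 11) := ⟨by norm_num⟩
  have := IsCyclotomicExtension.Rat.five_pid (CyclotomicField 5 ℚ)
  obtain ⟨D⟩ := exists_kummerData (p := 5) (K := CyclotomicField 5 ℚ)
    (fun ζ hζ hpow w n hw => kummer_lemma_five hζ hpow w n hw)
  exact flt_of_data (p := 5) (q := 11) (by norm_num) D check_five check_five'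
    hxy hx hy hz h

theorem flt_seven {x y z : ℤ} (hxy : IsCoprime x y) (hx : x ≠ 0) (hy : y ≠ 0) (hz : z ≠ 0)
    (h : x ^ 7 + y ^ 7 = z ^ 7) : False := by
  have : NeZero ((7 : ℕ) : ℚ) := ⟨by norm_num⟩
  have : IsCyclotomicExtension {7} ℚ (CyclotomicField 7 ℚ) :=
    CyclotomicField.isCyclotomicExtension 7 ℚ
  have : Fact (Nat.Prime 7) := ⟨by norm_num⟩
  have : Fact (Nat.Prime 29) := ⟨by norm_num⟩
  have := Fermat.Agent.Cyclo.seven_pid (CyclotomicField 7 ℚ)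
  obtain ⟨D⟩ := exists_kummerData (p := 7) (K := CyclotomicField 7 ℚ)
    (fun ζ hζ hpow w n hw => kummer_lemma_seven hζ hpow w n hw)
  exact flt_of_data (p := 7) (q := 29) (by norm_num) D check_seven check_seven'
    hxy hx hy hz h

theorem flt_eleven {x y z : ℤ} (hxy : IsCoprime x y) (hx : x ≠ 0) (hy : y ≠ 0) (hz : z ≠ 0)
    (h : x ^ 11 + y ^ 11 = z ^ 11) : False := by
  have : NeZero ((11 : ℕ) : ℚ) := ⟨by norm_num⟩
  have : IsCyclotomicExtension {11} ℚ (CyclotomicField 11 ℚ) :=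
    CyclotomicField.isCyclotomicExtension 11 ℚ
  have : Fact (Nat.Prime 11) := ⟨by norm_num⟩
  have : Fact (Nat.Prime 23) := ⟨by norm_num⟩
  have := Fermat.Agent.Cyclo.eleven_pid (CyclotomicField 11 ℚ)
  obtain ⟨D⟩ := exists_kummerData (p := 11) (K := CyclotomicField 11 ℚ)
    (fun ζ hζ hpow w n hw => kummer_lemma_eleven hζ hpow w n hw)
  exact flt_of_data (p := 11) (q := 23) (by norm_num) D check_eleven check_eleven'
    hxy hx hy hz h

theorem flt_thirteen {x y z : ℤ} (hxy : IsCoprime x y) (hx : x ≠ 0) (hy : y ≠ 0) (hz : z ≠ 0)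
    (h : x ^ 13 + y ^ 13 = z ^ 13) : False := by
  have : NeZero ((13 : ℕ) : ℚ) := ⟨by norm_num⟩
  have : IsCyclotomicExtension {13} ℚ (CyclotomicField 13 ℚ) :=
    CyclotomicField.isCyclotomicExtension 13 ℚ
  have : Fact (Nat.Prime 13) := ⟨by norm_num⟩
  have : Fact (Nat.Prime 53) := ⟨by norm_num⟩
  have := Fermat.Agent.Cyclo.thirteen_pid (CyclotomicField 13 ℚ)
  obtain ⟨D⟩ := exists_kummerData (p := 13) (K := CyclotomicField 13 ℚ)
    (fun ζ hζ hpow w n hw => kummer_lemma_thirteen hζ hpow w n hw)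
  exact flt_of_data (p := 13) (q := 53) (by norm_num) D check_thirteen check_thirteen'
    hxy hx hy hz h

end Fermat.Agent.KummerSmall
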