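import Fermat.Agent.KummerSmall.FLT
import Fermat.Prelude.Def_FLTPrelim_FreyPackage

set_option autoImplicit false

namespace Fermat.Agent.KummerSmall

lemma frey_isCoprime (P : FreyPackage) : IsCoprime P.a P.b := by
  rw [← gcd_isUnit_iff, P.hgcdab]
  exact isUnit_one

theorem frey_false_of_small (P : FreyPackage)
    (hp : P.p = 5 ∨ P.p = 7 ∨ P.p = 11 ∨ P.p = 13) : False := by
  have hab := frey_isCoprime P
  have h := P.hFLT
  rcases hp with h1 | h1 | h1 | h1 <;> rw [h1] at h
  · exact flt_five hab P.ha0 P.hb0 P.hc0 h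
  · exact flt_seven hab P.ha0 P.hb0 P.hc0 h
  · exact flt_eleven hab P.ha0 P.hb0 P.hc0 h
  · exact flt_thirteen hab P.ha0 P.hb0 P.hc0 h

end Fermat.Agent.KummerSmall
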