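import Mathlib

/-!
# Independence of cyclotomic units modulo `p` via logarithmic derivatives
-/

set_option autoImplicit false

namespace Fermat.Agent.KummerSmall

open Finset NumberField Polynomial

/-- substitute `X ↦ 1 + X` and reduce mod `p`. -/
noncomputable def Theta (p : ℕ) : ℤ[X] →+* PowerSeries (ZMod p) :=
  Polynomial.eval₂RingHom (Int.castRingHom _) (1 + PowerSeries.X)

lemma Theta_X (p : ℕ) : Theta p X = 1 + PowerSeries.X := by
  simp [Theta]

lemma natCast_powerSeries_eq_zero (p : ℕ) : (p : PowerSeries (ZMod p)) = 0 := by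
  have h : (p : PowerSeries (ZMod p)) = PowerSeries.C (p : ZMod p) := by
    rw [map_natCast]
  rw [h, CharP.cast_eq_zero, map_zero]

lemma Theta_cyclotomic (p : ℕ) [hp : Fact p.Prime] :
    Theta p (cyclotomic p ℤ) = PowerSeries.X ^ (p - 1) := by
  have hX : (PowerSeries.X : PowerSeries (ZMod p)) ≠ 0 := PowerSeries.X_ne_zero
  apply mul_right_cancel₀ hX
  rw [cyclotomic_prime, map_sum]
  simp only [map_pow, Theta_X]
  have h := geom_sum_mul (1 + PowerSeries.X : PowerSeries (ZMod p)) p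
  rw [add_sub_cancel_left] at h
  rw [h, ← pow_succ, Nat.sub_add_cancel hp.out.one_le]
  obtain ⟨r, hr⟩ := exists_add_pow_prime_eq hp.out (1 : PowerSeries (ZMod p)) PowerSeries.X
  rw [hr, natCast_powerSeries_eq_zero]
  ring

lemma deriv_prod_units {S R : Type*} [CommRing S] [CommRing R] [Algebra S R] {m : ℕ}
    (D : Derivation S R R)
    (F G : Fin m → R) (hFG : ∀ j, F j * G j = 1) (e : Fin m → ℕ) :
    D (∏ j, F j ^ e j) = (∏ j, F j ^ e j) * ∑ j, (e j : R) * (D (F j) * G j) := by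
  classical
  have : ∀ s : Finset (Fin m), D (∏ j ∈ s, F j ^ e j) =
      (∏ j ∈ s, F j ^ e j) * ∑ j ∈ s, (e j : R) * (D (F j) * G j) := by
    intro s
    induction s using Finset.induction_on with
    | empty => simp
    | insert a s ha ih =>
      rw [Finset.prod_insert ha, Finset.sum_insert ha, Derivation.leibniz, ih,
        Derivation.leibniz_pow]
      simp only [smul_eq_mul, nsmul_eq_mul]
      have h1 : (e a : R) * F a ^ (e a - 1) = F a ^ e a * ((e a : R) * G a) := by
        rcases Nat.eq_zero_or_pos (e a) with h | h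
        · simp [h]
        · obtain ⟨k, hk⟩ : ∃ k, e a = k + 1 := ⟨e a - 1, by omega⟩
          rw [hk, Nat.add_sub_cancel, pow_succ]
          linear_combination - (((k + 1 : ℕ) : R) * F a ^ k) * hFG a
      linear_combination (D (F a) * ∏ j ∈ s, F j ^ e j) * h1
  exact this Finset.univ

variable {p : ℕ} [hp : Fact p.Prime] {K : Type*} [Field K] [NumberField K]
  [IsCyclotomicExtension {p} ℚ K]

lemma exists_poly {ζ : 𝓞 K} (hζ : IsPrimitiveRoot ζ p) (x : 𝓞 K) :
    ∃ B : ℤ[X], aeval ζ B = x := by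
  have : NeZero p := ⟨hp.out.ne_zero⟩
  have hζK : IsPrimitiveRoot (algebraMap (𝓞 K) K ζ) p :=
    hζ.map_of_injective RingOfIntegers.coe_injective
  obtain ⟨f, hf⟩ := (hζK.integralPowerBasis).exists_eq_aeval' x
  refine ⟨f, ?_⟩
  rw [hf, IsPrimitiveRoot.integralPowerBasis_gen]
  rfl

lemma exists_identity {ζ : 𝓞 K} (hζ : IsPrimitiveRoot ζ p) (P : ℤ[X]) (n : ℤ)
    (h : (p : 𝓞 K) ∣ aeval ζ P - n) :
    ∃ B C : ℤ[X], P - (n : ℤ[X]) = (p : ℤ[X]) * B + cyclotomic p ℤ * C := by
  obtain ⟨β, hβ⟩ := h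
  obtain ⟨B, rfl⟩ := exists_poly hζ β
  have hζK : IsPrimitiveRoot (algebraMap (𝓞 K) K ζ) p :=
    hζ.map_of_injective RingOfIntegers.coe_injective
  have h1 : aeval (algebraMap (𝓞 K) K ζ) (P - (n : ℤ[X]) - (p : ℤ[X]) * B) = 0 := by
    have h2 : aeval ζ (P - (n : ℤ[X]) - (p : ℤ[X]) * B) = 0 := by
      simp only [map_sub, map_mul, map_intCast, map_natCast]
      rw [hβ, sub_self]
    rw [aeval_algebraMap_apply, h2, map_zero]
  have h2 : minpoly ℤ (algebraMap (𝓞 K) K ζ) ∣ P - (n : ℤ[X]) - (p : ℤ[X]) * B :=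
    minpoly.isIntegrallyClosed_dvd (hζK.isIntegral hp.out.pos) h1
  rw [← cyclotomic_eq_minpoly hζK hp.out.pos] at h2
  obtain ⟨C, hC⟩ := h2
  exact ⟨B, C, by rw [← hC]; ring⟩

theorem indep_criterion (hp5 : 5 ≤ p) {ζ : 𝓞 K} (hζ : IsPrimitiveRoot ζ p) {m : ℕ}
    (u : Fin m → (𝓞 K)ˣ) (U : Fin m → ℤ[X]) (hu : ∀ j, (u j : 𝓞 K) = aeval ζ (U j))
    (F : Fin m → PowerSeries (ZMod p)) (hF : ∀ j, Theta p (U j) = F j)
    (hF0 : ∀ j, PowerSeries.constantCoeff (F j) ≠ 0)
    (c : Fin m → ℕ → ZMod p)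
    (hc : ∀ j, ∀ k < p - 2, PowerSeries.coeff k (PowerSeries.mk (c j) * F j) =
      PowerSeries.coeff (k + 1) (F j) * (k + 1))
    (N : ℕ → Fin m → ZMod p)
    (hN : ∀ j i, ∑ k ∈ range (p - 2), c j k * N k i = if j = i then 1 else 0)
    (e : Fin m → ℕ) (n : ℤ)
    (h : (p : 𝓞 K) ∣ ((∏ i, (u i) ^ (e i) : (𝓞 K)ˣ) : 𝓞 K) - n) (i : Fin m) : p ∣ e i := by
  have h1 : ((∏ i, (u i) ^ (e i) : (𝓞 K)ˣ) : 𝓞 K) = aeval ζ (∏ i, (U i) ^ (e i)) := by
    rw [map_prod, Units.coe_prod]
    apply Finset.prod_congr rfl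
    intro j _
    rw [Units.val_pow_eq_pow_val, hu, map_pow]
  rw [h1] at h
  obtain ⟨B, C, hBC⟩ := exists_identity hζ _ n h
  have h2 := congrArg (Theta p) hBC
  have hp0 : Theta p (p : ℤ[X]) = 0 := by
    rw [map_natCast]
    exact natCast_powerSeries_eq_zero p
  rw [map_sub, map_add, map_mul, map_mul, Theta_cyclotomic, hp0, zero_mul, zero_add, map_prod,
    map_intCast] at h2
  simp only [map_pow, hF] at h2
  -- derivative
  let D : Derivation (ZMod p) (PowerSeries (ZMod p)) (PowerSeries (ZMod p)) :=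
    PowerSeries.derivative (ZMod p)
  have hFG : ∀ j, F j * (F j)⁻¹ = 1 := fun j => PowerSeries.mul_inv_cancel _ (hF0 j)
  have h3 := deriv_prod_units D F (fun j => (F j)⁻¹) hFG e
  have h4 : D (∏ j, F j ^ e j) = D (PowerSeries.X ^ (p - 1) * Theta p C) := by
    rw [← h2, map_sub]
    simp [D]
  have h5 : (PowerSeries.X : PowerSeries (ZMod p)) ^ (p - 2) ∣
      D (PowerSeries.X ^ (p - 1) * Theta p C) := by
    rw [Derivation.leibniz, Derivation.leibniz_pow]
    simp only [smul_eq_mul, nsmul_eq_mul]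
    apply dvd_add
    · exact (pow_dvd_pow _ (by omega)).mul_right _
    · have h6 : p - 1 - 1 = p - 2 := by omega
      rw [h6]
      exact (((dvd_refl _).mul_right _).mul_left _).mul_left _
  rw [← h4, h3] at h5
  have hunit : IsUnit (∏ j, F j ^ e j) := by
    apply isUnit_iff_exists_inv.2
    refine ⟨∏ j, ((F j)⁻¹) ^ e j, ?_⟩
    rw [← Finset.prod_mul_distrib]
    apply Finset.prod_eq_one
    intro j _
    rw [← mul_pow, hFG, one_pow]
  rw [hunit.dvd_mul_left] at h5
  have h6 : ∀ j, (PowerSeries.X : PowerSeries (ZMod p)) ^ (p - 2) ∣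
      PowerSeries.mk (c j) - D (F j) * (F j)⁻¹ := by
    intro j
    have h7 : (PowerSeries.X : PowerSeries (ZMod p)) ^ (p - 2) ∣
        PowerSeries.mk (c j) * F j - D (F j) := by
      rw [PowerSeries.X_pow_dvd_iff]
      intro k hk
      rw [map_sub, hc j k hk]
      have : D (F j) = PowerSeries.derivative (ZMod p) (F j) := rfl
      rw [this, PowerSeries.coeff_derivative, sub_self]
    have h8 : PowerSeries.mk (c j) - D (F j) * (F j)⁻¹ =
        (PowerSeries.mk (c j) * F j - D (F j)) * (F j)⁻¹ := by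
      linear_combination - PowerSeries.mk (c j) * hFG j
    rw [h8]
    exact h7.mul_right _
  have h9 : (PowerSeries.X : PowerSeries (ZMod p)) ^ (p - 2) ∣
      ∑ j, (e j : PowerSeries (ZMod p)) * PowerSeries.mk (c j) := by
    have h10 : ∑ j, (e j : PowerSeries (ZMod p)) * PowerSeries.mk (c j) =
        ∑ j, (e j : PowerSeries (ZMod p)) * (PowerSeries.mk (c j) - D (F j) * (F j)⁻¹) +
        ∑ j, (e j : PowerSeries (ZMod p)) * (D (F j) * (F j)⁻¹) := by
      rw [← Finset.sum_add_distrib]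
      apply Finset.sum_congr rfl
      intro j _
      ring
    rw [h10]
    exact dvd_add (Finset.dvd_sum fun j _ => (h6 j).mul_left _) h5
  rw [PowerSeries.X_pow_dvd_iff] at h9
  have h10 : ∀ k < p - 2, ∑ j, (e j : ZMod p) * c j k = 0 := by
    intro k hk
    have h11 := h9 k hk
    rw [map_sum] at h11
    rw [← h11]
    apply Finset.sum_congr rfl
    intro j _
    have h12 : (e j : PowerSeries (ZMod p)) * PowerSeries.mk (c j) =
      e j • PowerSeries.mk (c j) := (nsmul_eq_mul _ _).symm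
    rw [h12, map_nsmul, PowerSeries.coeff_mk, nsmul_eq_mul]
  rw [← CharP.cast_eq_zero_iff (ZMod p) p]
  calc (e i : ZMod p) = ∑ j, (e j : ZMod p) * (if j = i then 1 else 0) := by simp
    _ = ∑ j, (e j : ZMod p) * ∑ k ∈ range (p - 2), c j k * N k i := by
        apply Finset.sum_congr rfl
        intro j _
        rw [hN]
    _ = ∑ k ∈ range (p - 2), (∑ j, (e j : ZMod p) * c j k) * N k i := by
        simp_rw [Finset.mul_sum, Finset.sum_mul]
        rw [Finset.sum_comm]
        apply Finset.sum_congr rfl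
        intro k _
        apply Finset.sum_congr rfl
        intro j _
        ring
    _ = 0 := by
        apply Finset.sum_eq_zero
        intro k hk
        rw [h10 k (Finset.mem_range.1 hk), zero_mul]

end Fermat.Agent.KummerSmall
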