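import Mathlib

/-!
# A criterion for Kummer's lemma
-/

set_option autoImplicit false

namespace Fermat.Agent.KummerSmall

open Finset NumberField NumberField.Units

variable {p : ℕ} [hp : Fact p.Prime] (K : Type*) [Field K] [NumberField K]
  [IsCyclotomicExtension {p} ℚ K]

lemma rank_cyclotomic (hp5 : 5 ≤ p) : rank K = (p - 1) / 2 - 1 := by
  rw [rank, InfinitePlace.card_eq_nrRealPlaces_add_nrComplexPlaces,
    IsCyclotomicExtension.Rat.nrRealPlaces_eq_zero (n := p) K (by omega),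
    IsCyclotomicExtension.Rat.nrComplexPlaces_eq_totient_div_two p K, zero_add,
    Nat.totient_prime hp.out]

variable {K}

/-- the subgroup of `p`-th powers -/
def ppow (p : ℕ) (K : Type*) [Field K] [NumberField K] : Subgroup (𝓞 K)ˣ :=
  (powMonoidHom p : (𝓞 K)ˣ →* (𝓞 K)ˣ).range

lemma mem_ppow {p : ℕ} {K : Type*} [Field K] [NumberField K] {x : (𝓞 K)ˣ} :
    x ∈ ppow p K ↔ ∃ v, x = v ^ p := by
  unfold ppow
  constructor
  · rintro ⟨v, rfl⟩; exact ⟨v, rfl⟩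
  · rintro ⟨v, rfl⟩; exact ⟨v, rfl⟩

lemma zpow_split {G : Type*} [Group G] {p : ℕ} (hp : 0 < p) (y : G) (z : ℤ) :
    y ^ z = y ^ (z % p).toNat * (y ^ (z / p)) ^ p := by
  have h1 : ((z % p).toNat : ℤ) = z % p := Int.toNat_of_nonneg (Int.emod_nonneg _ (by omega))
  rw [← zpow_natCast y (z % p).toNat, h1, ← zpow_natCast (y ^ (z / p)) p, ← zpow_mul, ← zpow_add,
    mul_comm (z / p) (p : ℤ), add_comm, Int.mul_ediv_add_emod]

/-- The map parametrising `E/E^p`. -/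
noncomputable def paramMap (p : ℕ) (K : Type*) [Field K] [NumberField K] (z : (𝓞 K)ˣ) :
    (Fin (rank K) → Fin p) × Fin p → (𝓞 K)ˣ ⧸ ppow p K :=
  fun e => ((z ^ (e.2 : ℕ) * ∏ i, (fundSystem K i) ^ (e.1 i : ℕ) : (𝓞 K)ˣ) :)

lemma paramMap_surjective (hp5 : 5 ≤ p) {ζ : 𝓞 K} (hζ : IsPrimitiveRoot ζ p) {z : (𝓞 K)ˣ}
    (hz : (z : 𝓞 K) = ζ) : Function.Surjective (paramMap p K z) := by
  intro y
  obtain ⟨x, rfl⟩ := QuotientGroup.mk_surjective y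
  obtain ⟨⟨t, e⟩, hx, -⟩ := exist_unique_eq_mul_prod K x
  simp only at hx
  have hodd : Odd p := hp.out.odd_of_ne_two (by omega)
  have hζK : IsPrimitiveRoot (algebraMap (𝓞 K) K ζ) p :=
    hζ.map_of_injective RingOfIntegers.coe_injective
  have htf : IsOfFinOrder (algebraMap (𝓞 K) K ((t : (𝓞 K)ˣ) : 𝓞 K)) := by
    have h1 := (CommGroup.mem_torsion _).1 t.2
    obtain ⟨n, hn, hn1⟩ := isOfFinOrder_iff_pow_eq_one.1 h1
    refine isOfFinOrder_iff_pow_eq_one.2 ⟨n, hn, ?_⟩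
    rw [← map_pow, ← Units.val_pow_eq_pow_val, hn1, Units.val_one, map_one]
  obtain ⟨r, hr, hr2⟩ := hζK.exists_pow_or_neg_mul_pow_of_isOfFinOrder hodd htf
  obtain ⟨s, hs⟩ : ∃ s : (𝓞 K)ˣ, (t : (𝓞 K)ˣ) = z ^ r * s ^ p := by
    rcases hr2 with h | h
    · refine ⟨1, ?_⟩
      rw [one_pow, mul_one]
      apply Units.ext
      apply RingOfIntegers.coe_injective
      rw [h, Units.val_pow_eq_pow_val, hz, map_pow]
    · refine ⟨-1, ?_⟩
      rw [hodd.neg_one_pow, mul_neg, mul_one]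
      apply Units.ext
      apply RingOfIntegers.coe_injective
      rw [h, Units.val_neg, Units.val_pow_eq_pow_val, hz, map_neg, map_pow]
  refine ⟨⟨fun i => ⟨(e i % p).toNat, ?_⟩, ⟨r, hr⟩⟩, ?_⟩
  · have h1 := Int.emod_lt_of_pos (e i) (show (0 : ℤ) < p by exact_mod_cast hp.out.pos)
    have h2 := Int.emod_nonneg (e i) (show (p : ℤ) ≠ 0 by exact_mod_cast hp.out.ne_zero)
    omega
  · unfold paramMap
    simp only
    rw [QuotientGroup.eq, mem_ppow]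
    refine ⟨s * ∏ i, (fundSystem K i) ^ (e i / p), ?_⟩
    rw [inv_mul_eq_iff_eq_mul, hx, hs, mul_pow, ← Finset.prod_pow]
    have : ∏ i, (fundSystem K i) ^ (e i) =
        (∏ i, (fundSystem K i) ^ (e i % p).toNat) * ∏ i, ((fundSystem K i) ^ (e i / p)) ^ p := by
      rw [← Finset.prod_mul_distrib]
      exact Finset.prod_congr rfl fun i _ => zpow_split hp.out.pos _ _
    rw [this]
    exact mul_mul_mul_comm _ _ _ _

/-- integer residues of `p`-th powers of units -/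
lemma unit_pow_congr {p : ℕ} {O : Type*} [CommRing O]
    (hpow : ∀ x : O, ∃ n : ℤ, (p : O) ∣ x ^ p - n)
    (v : Oˣ) : ∃ n : ℤ, (p : O) ∣ ((v ^ p : Oˣ) : O) - n := by
  obtain ⟨n, hn⟩ := hpow v
  exact ⟨n, by simpa using hn⟩

theorem kummer_criterion (hp5 : 5 ≤ p) {ζ : 𝓞 K} (hζ : IsPrimitiveRoot ζ p)
    (hpow : ∀ x : 𝓞 K, ∃ n : ℤ, (p : 𝓞 K) ∣ x ^ p - n)
    (u : Fin ((p - 1) / 2) → (𝓞 K)ˣ)
    (hind : ∀ (e : Fin ((p - 1) / 2) → ℕ) (n : ℤ),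
      (p : 𝓞 K) ∣ ((∏ i, (u i) ^ (e i) : (𝓞 K)ˣ) : 𝓞 K) - n → ∀ i, p ∣ e i)
    (w : (𝓞 K)ˣ) (n : ℤ) (hw : (p : 𝓞 K) ∣ (w : 𝓞 K) - n) : ∃ v : (𝓞 K)ˣ, w = v ^ p := by
  have : NeZero p := ⟨hp.out.ne_zero⟩
  obtain ⟨z, hz⟩ : ∃ z : (𝓞 K)ˣ, (z : 𝓞 K) = ζ := by
    obtain ⟨u, hu⟩ := hζ.isUnit hp.out.ne_zero
    exact ⟨u, hu⟩
  have hsurj := paramMap_surjective hp5 hζ hz
  have hfin : Finite ((𝓞 K)ˣ ⧸ ppow p K) := Finite.of_surjective _ hsurj
  have hcard : Nat.card ((𝓞 K)ˣ ⧸ ppow p K) ≤ p ^ ((p - 1) / 2) := by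
    have h1 := Nat.card_le_card_of_surjective _ hsurj
    rw [Nat.card_prod, Nat.card_fun, Nat.card_fin, Nat.card_fin, rank_cyclotomic K hp5,
      ← pow_succ] at h1
    have h2 : (p - 1) / 2 - 1 + 1 = (p - 1) / 2 := by omega
    rwa [h2] at h1
  let g : (Fin ((p - 1) / 2) → Fin p) → (𝓞 K)ˣ ⧸ ppow p K :=
    fun e => ((∏ i, (u i) ^ (e i : ℕ) : (𝓞 K)ˣ) :)
  have hinj : Function.Injective g := by
    intro e e' hee
    have h0 : (∏ i, (u i) ^ (e i : ℕ))⁻¹ * (∏ i, (u i) ^ (e' i : ℕ)) ∈ ppow p K :=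
      QuotientGroup.eq.1 hee
    obtain ⟨v, hv⟩ := mem_ppow.1 h0
    have h2 : (∏ i, (u i) ^ ((e' i : ℕ) + (p - (e i : ℕ))) : (𝓞 K)ˣ) = (v * ∏ i, u i) ^ p := by
      rw [mul_pow, ← hv, ← Finset.prod_pow, ← Finset.prod_inv_distrib, ← Finset.prod_mul_distrib,
        ← Finset.prod_mul_distrib]
      apply Finset.prod_congr rfl
      intro i _
      have h3 : (e i : ℕ) ≤ p := (e i).2.le
      rw [pow_add, mul_comm (u i ^ (e i : ℕ))⁻¹, mul_assoc]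
      congr 1
      rw [eq_inv_mul_iff_mul_eq, ← pow_add, Nat.add_sub_cancel' h3]
    obtain ⟨m, hm⟩ := unit_pow_congr hpow (v * ∏ i, u i)
    have h4 := hind _ m (by rw [h2]; exact hm)
    funext i
    have h5 := h4 i
    have h6 := (e i).2
    have h7 := (e' i).2
    apply Fin.ext
    obtain ⟨k, hk⟩ := h5
    have hk1 : k = 1 := by
      have hp0 := hp.out.pos
      rcases k with _ | _ | k
      · omega
      · rfl
      · exfalso
        have : p * (k + 1 + 1) = p * k + 2 * p := by ring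
        rw [this] at hk
        have h8 : 0 ≤ p * k := Nat.zero_le _
        omega
    rw [hk1, mul_one] at hk
    omega
  have hbij : Function.Bijective g := by
    apply hinj.bijective_of_nat_card_le
    rw [Nat.card_fun, Nat.card_fin, Nat.card_fin]
    exact hcard
  obtain ⟨e, he⟩ := hbij.2 (w : (𝓞 K)ˣ ⧸ ppow p K)
  -- `w = ∏ u^e * v^p`
  have h1 : (∏ i, (u i) ^ (e i : ℕ))⁻¹ * w ∈ ppow p K := by
    rw [← QuotientGroup.eq]; exact he
  obtain ⟨v, hv⟩ := mem_ppow.1 h1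
  have h2 : (∏ i, (u i) ^ (e i : ℕ)) = w * (v⁻¹) ^ p := by
    rw [inv_pow, ← hv, mul_inv_rev, inv_inv, ← mul_assoc, mul_inv_cancel, one_mul]
  obtain ⟨m, hm⟩ := unit_pow_congr hpow v⁻¹
  have h3 := hind (fun i => (e i : ℕ)) (n * m) (by
    rw [h2, Units.val_mul]
    have : (w : 𝓞 K) * ((v⁻¹ ^ p : (𝓞 K)ˣ) : 𝓞 K) - ((n * m : ℤ) : 𝓞 K) =
      (w - n) * ((v⁻¹ ^ p : (𝓞 K)ˣ) : 𝓞 K) + n * (((v⁻¹ ^ p : (𝓞 K)ˣ) : 𝓞 K) - m) := by
      push_cast; ring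
    rw [this]
    exact dvd_add (hw.mul_right _) (hm.mul_left _))
  have h4 : (∏ i, (u i) ^ (e i : ℕ)) = 1 := by
    apply Finset.prod_eq_one
    intro i _
    have h5 := Nat.eq_zero_of_dvd_of_lt (h3 i) (e i).2
    rw [h5, pow_zero]
  rw [h4, inv_one, one_mul] at hv
  exact ⟨v, hv⟩

end Fermat.Agent.KummerSmall
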