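import Fermat.Agent.KummerSmall.Indep
import Fermat.Agent.KummerSmall.UnitLemma
import Fermat.Agent.KummerSmall.Descent

/-!
# Kummer's lemma for p = 5, 7, 11, 13
-/

set_option autoImplicit false

namespace Fermat.Agent.KummerSmall

open Finset NumberField Polynomial

/-- coefficients of the power series attached to the cyclotomic units -/
def Fc (j k : ℕ) : ℕ := if j = 0 then Nat.choose 1 k else Nat.choose (j + 1) (k + 1)

/-- polynomials of the cyclotomic units -/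
noncomputable def Upoly (j : ℕ) : ℤ[X] := if j = 0 then X else ∑ i ∈ range (j + 1), X ^ i

lemma coeff_one_add_X_pow' (p n k : ℕ) :
    PowerSeries.coeff k ((1 + PowerSeries.X : PowerSeries (ZMod p)) ^ n) = (n.choose k : ZMod p) := by
  have h : (1 + PowerSeries.X : PowerSeries (ZMod p)) ^ n = (((1 + X) ^ n : (ZMod p)[X]) :
      PowerSeries (ZMod p)) := by
    simp
  rw [h, Polynomial.coeff_coe, Polynomial.coeff_one_add_X_pow]

lemma Theta_Upoly (p j : ℕ) : Theta p (Upoly j) = PowerSeries.mk fun k => (Fc j k : ZMod p) := by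
  unfold Upoly Fc
  split_ifs with h
  · rw [Theta_X]
    ext k
    rw [PowerSeries.coeff_mk, ← coeff_one_add_X_pow', pow_one]
  · rw [map_sum]
    simp only [map_pow, Theta_X]
    ext k
    rw [PowerSeries.coeff_mk]
    have h1 := geom_sum_mul (1 + PowerSeries.X : PowerSeries (ZMod p)) (j + 1)
    rw [add_sub_cancel_left] at h1
    have h2 := congrArg (PowerSeries.coeff (k + 1)) h1
    rw [PowerSeries.coeff_succ_mul_X, map_sub, coeff_one_add_X_pow', PowerSeries.coeff_one] at h2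
    rw [h2]
    simp

lemma aeval_Upoly_isUnit {O : Type*} [CommRing O] [IsDomain O] {p : ℕ} [hp : Fact p.Prime] {ζ : O}
    (hζ : IsPrimitiveRoot ζ p) {j : ℕ} (hj : j + 1 < p) : IsUnit (aeval ζ (Upoly j)) := by
  unfold Upoly
  split_ifs with h
  · rw [aeval_X]; exact hζ.isUnit hp.out.ne_zero
  · rw [map_sum]
    simp only [map_pow, aeval_X]
    exact hζ.geom_sum_isUnit hp.out.two_le
      (Nat.coprime_of_lt_prime (by omega) hj hp.out).symm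

/-- the list-based check for the logarithmic derivative and the left inverse -/
theorem kummer_of_check {p : ℕ} [hp : Fact p.Prime] (hp5 : 5 ≤ p) {K : Type*} [Field K]
    [NumberField K] [IsCyclotomicExtension {p} ℚ K] {ζ : 𝓞 K} (hζ : IsPrimitiveRoot ζ p)
    (hpow : ∀ x : 𝓞 K, ∃ n : ℤ, (p : 𝓞 K) ∣ x ^ p - n)
    (c : ℕ → ℕ → ℕ) (N : ℕ → ℕ → ℕ)
    (hc : ∀ j < (p - 1) / 2, ∀ k < p - 2,
      (∑ x ∈ range (k + 1), c j x * Fc j (k - x)) % p = (Fc j (k + 1) * (k + 1)) % p)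
    (hN : ∀ j < (p - 1) / 2, ∀ i < (p - 1) / 2,
      (∑ k ∈ range (p - 2), c j k * N k i) % p = (if j = i then 1 else 0) % p)
    (w : (𝓞 K)ˣ) (n : ℤ) (hw : (p : 𝓞 K) ∣ (w : 𝓞 K) - n) : ∃ v : (𝓞 K)ˣ, w = v ^ p := by
  have hU : ∀ j : Fin ((p - 1) / 2), ∃ u : (𝓞 K)ˣ, (u : 𝓞 K) = aeval ζ (Upoly j) := by
    intro j
    have := j.2
    obtain ⟨u, hu⟩ := aeval_Upoly_isUnit hζ (j := (j : ℕ)) (by omega)
    exact ⟨u, hu⟩
  choose u hu using hU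
  refine kummer_criterion hp5 hζ hpow u ?_ w n hw
  intro e n' h i
  refine indep_criterion hp5 hζ u (fun j => Upoly j) hu
    (fun j => PowerSeries.mk fun k => (Fc j k : ZMod p)) (fun j => Theta_Upoly p j) ?_
    (fun j k => (c j k : ZMod p)) ?_ (fun k i => (N k i : ZMod p)) ?_ e n' h i
  · intro j
    rw [← PowerSeries.coeff_zero_eq_constantCoeff_apply, PowerSeries.coeff_mk]
    have hj := j.2
    intro h0
    rw [CharP.cast_eq_zero_iff (ZMod p) p] at h0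
    have : Fc j 0 = (j : ℕ) + 1 := by
      unfold Fc
      split_ifs with h1
      · simp [h1]
      · simp
    rw [this] at h0
    have := Nat.le_of_dvd (by omega) h0
    omega
  · intro j k hk
    rw [PowerSeries.coeff_mul, Finset.Nat.sum_antidiagonal_eq_sum_range_succ_mk]
    simp only [PowerSeries.coeff_mk]
    have h1 := hc j j.2 k hk
    have h2 : ((∑ x ∈ range (k + 1), c j x * Fc j (k - x) : ℕ) : ZMod p) =
        ((Fc j (k + 1) * (k + 1) : ℕ) : ZMod p) := by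
      rw [ZMod.natCast_eq_natCast_iff]
      exact h1
    push_cast at h2
    exact h2
  · intro j i
    have h1 := hN j j.2 i i.2
    have h2 : ((∑ k ∈ range (p - 2), c j k * N k i : ℕ) : ZMod p) =
        ((if (j : ℕ) = i then 1 else 0 : ℕ) : ZMod p) := by
      rw [ZMod.natCast_eq_natCast_iff]
      exact h1
    push_cast at h2
    rw [h2]
    simp [Fin.ext_iff]

/-- entry of a list of lists -/
def ent (l : List (List ℕ)) (i j : ℕ) : ℕ := (l.getD i []).getD j 0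

/-- Kummer's lemma for `p = 5`. -/
theorem kummer_lemma_five {K : Type*} [Field K] [NumberField K]
    [IsCyclotomicExtension {5} ℚ K] {ζ : 𝓞 K} (hζ : IsPrimitiveRoot ζ 5)
    (hpow : ∀ x : 𝓞 K, ∃ n : ℤ, ((5 : ℕ) : 𝓞 K) ∣ x ^ 5 - n)
    (w : (𝓞 K)ˣ) (n : ℤ) (hw : ((5 : ℕ) : 𝓞 K) ∣ (w : 𝓞 K) - n) : ∃ v : (𝓞 K)ˣ, w = v ^ 5 := by
  haveI : Fact (Nat.Prime 5) := ⟨by norm_num⟩
  refine kummer_of_check (p := 5) (by norm_num) hζ hpow
    (ent [[1, 4, 1], [3, 1, 2]])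
    (ent [[4, 4], [3, 4], [0, 0]]) ?_ ?_ w n hw
  · decide +kernel
  · decide +kernel

/-- Kummer's lemma for `p = 7`. -/
theorem kummer_lemma_seven {K : Type*} [Field K] [NumberField K]
    [IsCyclotomicExtension {7} ℚ K] {ζ : 𝓞 K} (hζ : IsPrimitiveRoot ζ 7)
    (hpow : ∀ x : 𝓞 K, ∃ n : ℤ, ((7 : ℕ) : 𝓞 K) ∣ x ^ 7 - n)
    (w : (𝓞 K)ˣ) (n : ℤ) (hw : ((7 : ℕ) : 𝓞 K) ∣ (w : 𝓞 K) - n) : ∃ v : (𝓞 K)ˣ, w = v ^ 7 := by
  haveI : Fact (Nat.Prime 7) := ⟨by norm_num⟩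
  refine kummer_of_check (p := 7) (by norm_num) hζ hpow
    (ent [[1, 6, 1, 6, 1], [4, 5, 1, 3, 2], [1, 2, 0, 4, 3]])
    (ent [[0, 3, 3], [5, 4, 0], [0, 0, 0], [1, 6, 3], [0, 0, 0]]) ?_ ?_ w n hw
  · decide +kernel
  · decide +kernel

/-- Kummer's lemma for `p = 11`. -/
theorem kummer_lemma_eleven {K : Type*} [Field K] [NumberField K]
    [IsCyclotomicExtension {11} ℚ K] {ζ : 𝓞 K} (hζ : IsPrimitiveRoot ζ 11)
    (hpow : ∀ x : 𝓞 K, ∃ n : ℤ, ((11 : ℕ) : 𝓞 K) ∣ x ^ 11 - n)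
    (w : (𝓞 K)ˣ) (n : ℤ) (hw : ((11 : ℕ) : 𝓞 K) ∣ (w : 𝓞 K) - n) : ∃ v : (𝓞 K)ˣ, w = v ^ 11 := by
  haveI : Fact (Nat.Prime 11) := ⟨by norm_num⟩
  refine kummer_of_check (p := 11) (by norm_num) hζ hpow
    (ent [[1, 10, 1, 10, 1, 10, 1, 10, 1], [6, 8, 7, 2, 10, 6, 8, 7, 2], [1, 7, 0, 5, 6, 7, 2, 3, 0], [7, 8, 1, 8, 7, 6, 4, 0, 0], [2, 0, 10, 3, 0, 6, 5, 6, 5]])
    (ent [[9, 6, 7, 0, 2], [1, 8, 7, 4, 2], [0, 0, 0, 0, 0], [9, 0, 1, 3, 1], [0, 0, 0, 0, 0], [0, 8, 5, 0, 1], [0, 0, 0, 0, 0], [9, 1, 5, 4, 9], [0, 0, 0, 0, 0]]) ?_ ?_ w n hw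
  · decide +kernel
  · decide +kernel

/-- Kummer's lemma for `p = 13`. -/
theorem kummer_lemma_thirteen {K : Type*} [Field K] [NumberField K]
    [IsCyclotomicExtension {13} ℚ K] {ζ : 𝓞 K} (hζ : IsPrimitiveRoot ζ 13)
    (hpow : ∀ x : 𝓞 K, ∃ n : ℤ, ((13 : ℕ) : 𝓞 K) ∣ x ^ 13 - n)
    (w : (𝓞 K)ˣ) (n : ℤ) (hw : ((13 : ℕ) : 𝓞 K) ∣ (w : 𝓞 K) - n) : ∃ v : (𝓞 K)ˣ, w = v ^ 13 := by
  haveI : Fact (Nat.Prime 13) := ⟨by norm_num⟩
  refine kummer_of_check (p := 13) (by norm_num) hζ hpow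
    (ent [[1, 12, 1, 12, 1, 12, 1, 12, 1, 12, 1], [7, 3, 5, 4, 11, 1, 6, 10, 8, 9, 2], [1, 4, 0, 3, 10, 2, 12, 9, 0, 10, 3], [8, 3, 11, 11, 1, 1, 11, 5, 4, 9, 4], [2, 0, 12, 6, 0, 2, 11, 4, 7, 3, 5], [9, 8, 3, 8, 9, 1, 6, 7, 6, 7, 6]])
    (ent [[1, 10, 12, 7, 4, 4], [3, 2, 12, 11, 2, 1], [0, 0, 0, 0, 0, 0], [3, 10, 2, 9, 2, 2], [0, 0, 0, 0, 0, 0], [9, 7, 4, 9, 7, 11], [0, 0, 0, 0, 0, 0], [7, 11, 0, 6, 1, 1], [0, 0, 0, 0, 0, 0], [4, 6, 7, 11, 5, 2], [0, 0, 0, 0, 0, 0]]) ?_ ?_ w n hw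
  · decide +kernel
  · decide +kernel

end Fermat.Agent.KummerSmall
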